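import Mathlib
import Fermat.Agent.Lib.RR.MultGeneral

set_option autoImplicit false

/-!
# FF / S19, route R-G, seat E: general points, uniformly in a choice (helper20)

`F / K` a function field (`IsRRField`, any characteristic).  `S : ℕ → Finset (Place K F)` is a
sequence of pairwise disjoint finite sets of places (in the application: the places over the roots
of the `m`-th monic irreducible polynomial over `𝔽_ℓ`, i.e. everything the Galois conjugates of a
place over a root of a lift can reduce to).

* `finite_basePoints` : a nonzero `L(Z)` has finitely many base points;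
* `exists_index_forall` : one index `m`, off a finite set, such that NO place of `S m` is a base
  point of any nonzero `L(Z)`, `Z` in a finite family;
* `exists_indices_forall_choice` : `n` distinct indices `m₁, …, mₙ` such that for EVERY choice
  `Q i ∈ S (m i)` and every `Z` of the family `ℓ(Z - ∑ Q i) = ℓ(Z) - n` (truncated).
-/

noncomputable section

open AlgebraicCurve

namespace Fermat.Agent.FFGoodEll

open Fermat.Agent.RR Fermat.Agent.RRMult

variable {K F : Type*} [Field K] [Field F] [Algebra K F]

/-- the divisor `∑ i, Q i` of a tuple of places. -/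
def sumTuple {n : ℕ} (Q : Fin n → Place K F) : Divisor K F := ∑ i, Finsupp.single (Q i) (1 : ℤ)

theorem sumTuple_zero (Q : Fin 0 → Place K F) : sumTuple Q = 0 := by
  simp [sumTuple]

theorem sumTuple_succ {n : ℕ} (Q : Fin (n + 1) → Place K F) :
    sumTuple Q = Finsupp.single (Q 0) 1 + sumTuple (fun i : Fin n => Q i.succ) := by
  simp [sumTuple, Fin.sum_univ_succ]

theorem sumTuple_nonneg {n : ℕ} (Q : Fin n → Place K F) : 0 ≤ sumTuple Q := by
  unfold sumTuple
  refine Finset.sum_nonneg fun i _ => ?_
  intro v
  classical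
  rw [Finsupp.coe_zero, Pi.zero_apply, Finsupp.single_apply]
  split_ifs <;> norm_num

theorem degree_sumTuple (h : IsRRField K F) {n : ℕ} (Q : Fin n → Place K F) :
    Divisor.degree (sumTuple Q) = n := by
  unfold sumTuple
  rw [map_sum]
  simp [degree_single_one h]

/-- if `Q` is not a zero of `s ∈ L(Z)` relative to `Z`, then `ℓ(Z - Q) = ℓ(Z) - 1`. -/
theorem ell_sub_single_of_ord_eq (h : IsRRField K F) (Z : Divisor K F) (Q : Place K F)
    {s : F} (hs0 : s ≠ 0) (hs : s ∈ riemannRochSpace Z) (hord : Q.ord s = -Z Q) :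
    ell (Z - Finsupp.single Q 1) = ell Z - 1 := by
  have e : Z - Finsupp.single Q 1 + Finsupp.single Q 1 = Z := sub_add_cancel _ _
  have hnot : s ∉ riemannRochSpace (Z - Finsupp.single Q 1) := by
    intro hmem
    have := (mem_riemannRochSpace_iff.mp hmem Q).resolve_left hs0
    rw [Finsupp.sub_apply, Finsupp.single_eq_same, hord] at this
    omega
  have h1 := (ell_add_single_eq_iff h (Z - Finsupp.single Q 1) Q).mpr
    ⟨s, by rw [e]; exact hs, hnot⟩
  rw [e] at h1
  omega

/-- a nonzero `L(Z)` has finitely many base points. -/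
theorem finite_basePoints (h : IsRRField K F) (Z : Divisor K F) (hZ : ell Z ≠ 0) :
    {Q : Place K F | ell (Z - Finsupp.single Q 1) ≠ ell Z - 1}.Finite := by
  have hne : riemannRochSpace Z ≠ ⊥ := by
    intro hbot
    apply hZ
    unfold ell
    rw [hbot, finrank_bot]
  obtain ⟨s, hs, hs0⟩ := Submodule.exists_mem_ne_zero_of_ne_bot hne
  refine (finite_relZeros h Z hs0).subset fun Q hQ => ?_
  intro hord
  exact hQ (ell_sub_single_of_ord_eq h Z Q hs0 hs hord)

/-- subtracting a place never increases `ℓ`, and decreases it by at most one. -/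
theorem ell_sub_single_le (h : IsRRField K F) (Z : Divisor K F) (Q : Place K F) :
    ell (Z - Finsupp.single Q 1) ≤ ell Z :=
  ell_mono h (by
    have := le_add_single (Z - Finsupp.single Q 1) Q
    rwa [sub_add_cancel] at this)

theorem ell_sub_single_of_ell_eq_zero (h : IsRRField K F) (Z : Divisor K F) (Q : Place K F)
    (hZ : ell Z = 0) : ell (Z - Finsupp.single Q 1) = ell Z - 1 := by
  have := ell_sub_single_le h Z Q
  omega

/-- **one step.**  For a finite family `𝒵` and pairwise disjoint finite sets `S m` there is an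
index `m`, off a given finite set `T`, such that no place of `S m` is a base point of any
nonzero `L(Z)`, `Z ∈ 𝒵`. -/
theorem exists_index_forall (h : IsRRField K F) (S : ℕ → Finset (Place K F))
    (hS : ∀ m m', m ≠ m' → Disjoint (S m) (S m')) (𝒵 : Finset (Divisor K F)) (T : Finset ℕ) :
    ∃ m, m ∉ T ∧ ∀ Q ∈ S m, ∀ Z ∈ 𝒵, ell (Z - Finsupp.single Q 1) = ell Z - 1 := by
  classical
  -- the bad places
  have hfin : (⋃ Z ∈ {Z ∈ 𝒵 | ell Z ≠ 0},
      {Q : Place K F | ell (Z - Finsupp.single Q 1) ≠ ell Z - 1}).Finite := by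
    refine Set.Finite.biUnion (Finset.finite_toSet _) fun Z hZ => ?_
    exact finite_basePoints h Z (Finset.mem_filter.mp (Finset.mem_coe.mp hZ)).2
  set B : Finset (Place K F) := hfin.toFinset with hB
  -- the bad indices
  have hbad : {m : ℕ | ∃ Q ∈ S m, Q ∈ B}.Finite := by
    have hsub : {m : ℕ | ∃ Q ∈ S m, Q ∈ B} ⊆ ⋃ Q ∈ B, {m : ℕ | Q ∈ S m} := by
      rintro m ⟨Q, hQm, hQB⟩
      exact Set.mem_biUnion hQB hQm
    refine (Set.Finite.biUnion B.finite_toSet fun Q _ => ?_).subset hsub
    refine Set.Subsingleton.finite ?_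
    intro m hm m' hm'
    by_contra hne
    exact Finset.disjoint_left.mp (hS m m' hne) hm hm'
  obtain ⟨m, hm⟩ := (hbad.union T.finite_toSet).infinite_compl.nonempty
  rw [Set.mem_compl_iff, Set.mem_union, not_or] at hm
  refine ⟨m, fun hmT => hm.2 (Finset.mem_coe.mpr hmT), fun Q hQ Z hZ => ?_⟩
  by_cases hZ0 : ell Z = 0
  · exact ell_sub_single_of_ell_eq_zero h Z Q hZ0
  by_contra hne
  apply hm.1
  refine ⟨Q, hQ, ?_⟩
  rw [hB, Set.Finite.mem_toFinset, Set.mem_iUnion₂]
  exact ⟨Z, Finset.mem_coe.mpr (Finset.mem_filter.mpr ⟨hZ, hZ0⟩), hne⟩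

/-- **general points, uniformly in the choice.**  For a finite family `𝒵` of divisors and
pairwise disjoint finite sets `S m` of places there are `n` distinct indices `m i`, off a given
finite set, such that for EVERY choice `Q i ∈ S (m i)` and every `Z ∈ 𝒵`:
`ℓ(Z - ∑ Q i) = ℓ(Z) - n` (truncated subtraction). -/
theorem exists_indices_forall_choice (h : IsRRField K F) (S : ℕ → Finset (Place K F))
    (hS : ∀ m m', m ≠ m' → Disjoint (S m) (S m')) (n : ℕ) :
    ∀ (𝒵 : Finset (Divisor K F)) (T : Finset ℕ),
      ∃ m : Fin n → ℕ, Function.Injective m ∧ (∀ i, m i ∉ T) ∧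
        ∀ Q : Fin n → Place K F, (∀ i, Q i ∈ S (m i)) →
          ∀ Z ∈ 𝒵, ell (Z - sumTuple Q) = ell Z - n := by
  classical
  induction n with
  | zero =>
    intro 𝒵 T
    refine ⟨fun i => i.elim0, fun i => i.elim0, fun i => i.elim0, fun Q _ Z _ => ?_⟩
    rw [sumTuple_zero, sub_zero, Nat.sub_zero]
  | succ n ih =>
    intro 𝒵 T
    obtain ⟨m₀, hm₀T, hm₀⟩ := exists_index_forall h S hS 𝒵 T
    set 𝒵' : Finset (Divisor K F) :=
      (𝒵 ×ˢ S m₀).image fun p => p.1 - Finsupp.single p.2 1 with h𝒵'
    obtain ⟨m', hm'inj, hm'T, hm'⟩ := ih 𝒵' (insert m₀ T)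
    refine ⟨Fin.cons m₀ m', ?_, ?_, ?_⟩
    · intro i j hij
      induction i using Fin.cases with
      | zero =>
        induction j using Fin.cases with
        | zero => rfl
        | succ j =>
          exfalso
          rw [Fin.cons_zero, Fin.cons_succ] at hij
          exact hm'T j (hij ▸ Finset.mem_insert_self m₀ T)
      | succ i =>
        induction j using Fin.cases with
        | zero =>
          exfalso
          rw [Fin.cons_zero, Fin.cons_succ] at hij
          exact hm'T i (hij ▸ Finset.mem_insert_self m₀ T)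
        | succ j =>
          rw [Fin.cons_succ, Fin.cons_succ] at hij
          rw [hm'inj hij]
    · intro i
      induction i using Fin.cases with
      | zero =>
        rw [Fin.cons_zero]
        exact hm₀T
      | succ i =>
        rw [Fin.cons_succ]
        exact fun hh => hm'T i (Finset.mem_insert_of_mem hh)
    · intro Q hQ Z hZ
      have hQ0 : Q 0 ∈ S m₀ := by
        have := hQ 0
        rwa [Fin.cons_zero] at this
      have hQs : ∀ i : Fin n, Q i.succ ∈ S (m' i) := by
        intro i
        have := hQ i.succ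
        rwa [Fin.cons_succ] at this
      have hmem : Z - Finsupp.single (Q 0) 1 ∈ 𝒵' := by
        rw [h𝒵', Finset.mem_image]
        exact ⟨(Z, Q 0), Finset.mem_product.mpr ⟨hZ, hQ0⟩, rfl⟩
      have h1 := hm' (fun i => Q i.succ) hQs _ hmem
      have h2 := hm₀ (Q 0) hQ0 Z hZ
      have e : Z - sumTuple Q = Z - Finsupp.single (Q 0) 1 - sumTuple (fun i : Fin n => Q i.succ) := by
        rw [sumTuple_succ]
        abel
      rw [e, h1, h2]
      omega

end Fermat.Agent.FFGoodEll
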