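import Mathlib
import Fermat.Agent.Lib.FF.GoodEll.Choice

set_option autoImplicit false

/-!
# FF / S19, route R-G, seat E: good divisors and the chart (helper20)

`F / K` a function field (`IsRRField`, any characteristic), genus `g`, `P` a place ("`∞`").
A divisor `Y` of degree `g` (in the application `Y = D₀(x) + E`, `x ∈ J[ℓ^k]`) is *good* if
`ℓ(Y - P) = 0` and `ℓ((2g-1) P - Y) = 0`.  Then
* `ℓ(Y) = 1`;
* the effective divisor `D ∼ Y` does not contain `P`;
* `L(T - D) ⊕ L((2g-1) P) = L(T)` for `T = M₀ P`, `M₀ ≥ 3g - 1`: the fixed subspace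
  `C = L((2g-1) P)` is a complement of `W_x = L(T - D)` (the chart of the Grassmannian).

`exists_indices_isGoodDiv` : existence of `g` indices such that `X + ∑ Q i` is good for every `X`
of a finite family of divisors of degree `0` and EVERY choice `Q i ∈ S (m i)`.
-/

noncomputable section

open AlgebraicCurve

namespace Fermat.Agent.FFGoodEll

open Fermat.Agent.RR Fermat.Agent.RRMult

variable {K F : Type*} [Field K] [Field F] [Algebra K F]

/-- `Y` (of degree `g`) is good for the chart at the place `P`. -/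
def IsGoodDiv (P : Place K F) (Y : Divisor K F) : Prop :=
  ell (Y - Finsupp.single P 1) = 0 ∧
    ell (Finsupp.single P (2 * (genusFF K F : ℤ) - 1) - Y) = 0

theorem riemannRochSpace_eq_bot_of_ell (h : IsRRField K F) {D : Divisor K F} (hD : ell D = 0) :
    riemannRochSpace D = ⊥ := by
  have := finite_riemannRochSpace h D
  exact Submodule.finrank_eq_zero.mp hD

theorem IsGoodDiv.ell_eq_one (h : IsRRField K F) {P : Place K F} {Y : Divisor K F}
    (hY : IsGoodDiv P Y) (hdeg : Divisor.degree Y = (genusFF K F : ℤ)) : ell Y = 1 := by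
  have h1 := ell_add_single_le h (Y - Finsupp.single P 1) P
  rw [sub_add_cancel, hY.1] at h1
  have h2 := riemann_roch_H1 h Y
  rw [hdeg] at h2
  have h3 : (0 : ℤ) ≤ (idx Y : ℤ) := Int.natCast_nonneg _
  omega

/-- the good property only depends on the linear equivalence class. -/
theorem IsGoodDiv.add_divOf (h : IsRRField K F) {P : Place K F} {Y : Divisor K F}
    (hY : IsGoodDiv P Y) {f : F} (hf : f ≠ 0) : IsGoodDiv P (Y + divOf h f) := by
  constructor
  · have e : Y + divOf h f - Finsupp.single P 1 = Y - Finsupp.single P 1 + divOf h f := by abel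
    rw [e, ell_add_divOf h _ hf]
    exact hY.1
  · have e : Finsupp.single P (2 * (genusFF K F : ℤ) - 1) - (Y + divOf h f)
        = Finsupp.single P (2 * (genusFF K F : ℤ) - 1) - Y + divOf h f⁻¹ := by
      rw [divOf_inv]
      abel
    rw [e, ell_add_divOf h _ (inv_ne_zero hf)]
    exact hY.2

/-- an effective good divisor does not contain `P`. -/
theorem IsGoodDiv.apply_eq_zero (h : IsRRField K F) {P : Place K F} {D : Divisor K F}
    (hD : IsGoodDiv P D) (hD0 : 0 ≤ D) : D P = 0 := by
  by_contra hne
  have hpos : 0 < D P := lt_of_le_of_ne (hD0 P) (Ne.symm hne)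
  have hge : 0 ≤ D - Finsupp.single P 1 := by
    intro v
    classical
    rw [Finsupp.coe_zero, Pi.zero_apply, Finsupp.sub_apply, Finsupp.single_apply]
    split_ifs with hv
    · subst hv
      omega
    · have := hD0 v
      simp only [Finsupp.coe_zero, Pi.zero_apply] at this
      omega
  have h1 : (1 : F) ∈ riemannRochSpace (D - Finsupp.single P 1) :=
    riemannRochSpace_mono hge (by
      have := algebraMap_mem_riemannRochSpace_zero (K := K) (F := F) 1
      simpa using this)
  rw [riemannRochSpace_eq_bot_of_ell h hD.1] at h1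
  exact one_ne_zero ((Submodule.mem_bot K).mp h1)

/-- `L(M₀ P - D) ∩ L((2g-1) P) = 0` for an effective good divisor `D`. -/
theorem IsGoodDiv.inf_eq_bot (h : IsRRField K F) {P : Place K F} {D : Divisor K F}
    (hD : IsGoodDiv P D) (hD0 : 0 ≤ D) (M₀ : ℤ) :
    riemannRochSpace (Finsupp.single P M₀ - D)
        ⊓ riemannRochSpace (Finsupp.single P (2 * (genusFF K F : ℤ) - 1)) = ⊥ := by
  rw [eq_bot_iff]
  intro f hf
  rw [Submodule.mem_bot]
  by_contra hf0
  have hDP := hD.apply_eq_zero h hD0
  have hmem : f ∈ riemannRochSpace (Finsupp.single P (2 * (genusFF K F : ℤ) - 1) - D) := by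
    rw [mem_riemannRochSpace_iff]
    intro v
    right
    have h1 := (mem_riemannRochSpace_iff.mp hf.1 v).resolve_left hf0
    have h2 := (mem_riemannRochSpace_iff.mp hf.2 v).resolve_left hf0
    classical
    rw [Finsupp.sub_apply, Finsupp.single_apply] at h1 ⊢
    rw [Finsupp.single_apply] at h2
    split_ifs at h1 h2 ⊢ with hv
    · subst hv
      rw [hDP]
      omega
    · omega
  rw [riemannRochSpace_eq_bot_of_ell h hD.2] at hmem
  exact hf0 ((Submodule.mem_bot K).mp hmem)

/-- `ℓ((2g-1) P) = g`. -/
theorem ell_chart (h : IsRRField K F) (P : Place K F) :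
    ell (Finsupp.single P (2 * (genusFF K F : ℤ) - 1)) = genusFF K F := by
  have h1 := ell_of_degree_gt h (D := Finsupp.single P (2 * (genusFF K F : ℤ) - 1))
    (by rw [degree_single_one h]; omega)
  rw [degree_single_one h] at h1
  omega

/-- **the chart**: `L(M₀ P - D) ⊔ L((2g-1) P) = L(M₀ P)` for an effective good divisor `D` of
degree `g` and `M₀ ≥ 3g - 1`. -/
theorem IsGoodDiv.sup_eq (h : IsRRField K F) {P : Place K F} {D : Divisor K F}
    (hD : IsGoodDiv P D) (hD0 : 0 ≤ D) (hdeg : Divisor.degree D = (genusFF K F : ℤ))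
    {M₀ : ℤ} (hM : 3 * (genusFF K F : ℤ) - 1 ≤ M₀) :
    riemannRochSpace (Finsupp.single P M₀ - D)
        ⊔ riemannRochSpace (Finsupp.single P (2 * (genusFF K F : ℤ) - 1))
      = riemannRochSpace (Finsupp.single P M₀) := by
  have hg : (0 : ℤ) ≤ (genusFF K F : ℤ) := Int.natCast_nonneg _
  have f1 := finite_riemannRochSpace h (Finsupp.single P M₀ - D)
  have f2 := finite_riemannRochSpace h (Finsupp.single P (2 * (genusFF K F : ℤ) - 1))
  have f3 := finite_riemannRochSpace h (Finsupp.single P M₀)
  have hle1 : riemannRochSpace (Finsupp.single P M₀ - D) ≤ riemannRochSpace (Finsupp.single P M₀) :=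
    riemannRochSpace_mono (sub_le_self _ hD0)
  have hle2 : riemannRochSpace (Finsupp.single P (2 * (genusFF K F : ℤ) - 1))
      ≤ riemannRochSpace (Finsupp.single P M₀) := by
    refine riemannRochSpace_mono ?_
    intro v
    classical
    rw [Finsupp.single_apply, Finsupp.single_apply]
    split_ifs
    · omega
    · exact le_refl _
  refine Submodule.eq_of_le_of_finrank_le (sup_le hle1 hle2) ?_
  have hsum := Submodule.finrank_sup_add_finrank_inf_eq
    (riemannRochSpace (Finsupp.single P M₀ - D))
    (riemannRochSpace (Finsupp.single P (2 * (genusFF K F : ℤ) - 1)))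
  rw [hD.inf_eq_bot h hD0 M₀, finrank_bot, add_zero] at hsum
  rw [hsum]
  have e1 := ell_of_degree_gt h (D := Finsupp.single P M₀ - D)
    (by rw [map_sub, degree_single_one h, hdeg]; omega)
  rw [map_sub, degree_single_one h, hdeg] at e1
  have e2 := ell_chart h P
  have e3 := ell_of_degree_gt h (D := Finsupp.single P M₀)
    (by rw [degree_single_one h]; omega)
  rw [degree_single_one h] at e3
  unfold ell at e1 e2 e3
  omega

/-- the chart as `IsCompl` inside `L(M₀ P)`: every `f ∈ L(M₀ P)` is uniquely `w + c`. -/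
theorem IsGoodDiv.exists_unique_add (h : IsRRField K F) {P : Place K F} {D : Divisor K F}
    (hD : IsGoodDiv P D) (hD0 : 0 ≤ D) (hdeg : Divisor.degree D = (genusFF K F : ℤ))
    {M₀ : ℤ} (hM : 3 * (genusFF K F : ℤ) - 1 ≤ M₀) {f : F}
    (hf : f ∈ riemannRochSpace (Finsupp.single P M₀)) :
    ∃ w ∈ riemannRochSpace (Finsupp.single P M₀ - D),
      ∃ c ∈ riemannRochSpace (Finsupp.single P (2 * (genusFF K F : ℤ) - 1)), w + c = f := by
  rw [← hD.sup_eq h hD0 hdeg hM] at hf
  exact Submodule.mem_sup.mp hf

/-- **good `E`, uniformly in a choice.**  `S m` pairwise disjoint finite sets of places,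
`𝒳` a finite family of divisors of degree `0`.  There are `g` distinct indices `m i` (off a
given finite set) such that `X + ∑ Q i` is good at `P` for every `X ∈ 𝒳` and EVERY choice
`Q i ∈ S (m i)`. -/
theorem exists_indices_isGoodDiv (h : IsRRField K F) (P : Place K F)
    (S : ℕ → Finset (Place K F)) (hS : ∀ m m', m ≠ m' → Disjoint (S m) (S m'))
    (𝒳 : Finset (Divisor K F)) (h𝒳 : ∀ X ∈ 𝒳, Divisor.degree X = 0) (T : Finset ℕ) :
    ∃ m : Fin (genusFF K F) → ℕ, Function.Injective m ∧ (∀ i, m i ∉ T) ∧
      ∀ Q : Fin (genusFF K F) → Place K F, (∀ i, Q i ∈ S (m i)) →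
        ∀ X ∈ 𝒳, IsGoodDiv P (X + sumTuple Q) := by
  classical
  obtain ⟨W, hW⟩ := riemann_roch h
  have hWdeg := (canonical_degree h hW).1
  set 𝒵 : Finset (Divisor K F) :=
    (𝒳.image fun X => W - X + Finsupp.single P 1) ∪
      (𝒳.image fun X => Finsupp.single P (2 * (genusFF K F : ℤ) - 1) - X) with h𝒵
  obtain ⟨m, hminj, hmT, hm⟩ := exists_indices_forall_choice h S hS (genusFF K F) 𝒵 T
  refine ⟨m, hminj, hmT, fun Q hQ X hX => ?_⟩
  have hXdeg := h𝒳 X hX
  have hQdeg := degree_sumTuple h Q
  constructor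
  · -- `ℓ(X + E - P) = ℓ(W - X + P - E) = 0`
    have hmem : W - X + Finsupp.single P 1 ∈ 𝒵 := by
      rw [h𝒵]
      exact Finset.mem_union_left _ (Finset.mem_image_of_mem _ hX)
    have h1 := hm Q hQ _ hmem
    have h2 : (ell (W - X + Finsupp.single P 1) : ℤ) = (genusFF K F : ℤ) := by
      have := ell_of_degree_gt h (D := W - X + Finsupp.single P 1)
        (by rw [map_add, map_sub, hWdeg, hXdeg, degree_single_one h]; omega)
      rw [map_add, map_sub, hWdeg, hXdeg, degree_single_one h] at this
      omega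
    have h3 : ell (W - X + Finsupp.single P 1 - sumTuple Q) = 0 := by
      rw [h1]
      omega
    have h4 := hW (X + sumTuple Q - Finsupp.single P 1)
    have e : W - (X + sumTuple Q - Finsupp.single P 1)
        = W - X + Finsupp.single P 1 - sumTuple Q := by abel
    rw [e, h3, map_sub, map_add, hXdeg, hQdeg, degree_single_one h] at h4
    have : (ell (X + sumTuple Q - Finsupp.single P 1) : ℤ) = 0 := by
      rw [h4]
      push_cast
      ring
    exact_mod_cast this
  · have hmem : Finsupp.single P (2 * (genusFF K F : ℤ) - 1) - X ∈ 𝒵 := by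
      rw [h𝒵]
      exact Finset.mem_union_right _ (Finset.mem_image_of_mem _ hX)
    have h1 := hm Q hQ _ hmem
    have h2 : (ell (Finsupp.single P (2 * (genusFF K F : ℤ) - 1) - X) : ℤ)
        = (genusFF K F : ℤ) := by
      have := ell_of_degree_gt h (D := Finsupp.single P (2 * (genusFF K F : ℤ) - 1) - X)
        (by rw [map_sub, hXdeg, degree_single_one h]; omega)
      rw [map_sub, hXdeg, degree_single_one h] at this
      omega
    have e : Finsupp.single P (2 * (genusFF K F : ℤ) - 1) - (X + sumTuple Q)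
        = Finsupp.single P (2 * (genusFF K F : ℤ) - 1) - X - sumTuple Q := by abel
    rw [e, h1]
    omega

end Fermat.Agent.FFGoodEll
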