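import Mathlib
import Fermat.Agent.Lib.FF.GoodEll.Semi
import Fermat.Agent.Lib.FF.RedCore
import Fermat.Agent.Lib.RR.Hurwitz.Val

set_option autoImplicit false

/-!
# FF / S19, route R-G, seat FIB (a)(b)(d), abstract part (helper20)

`S : Deuring.ValSetup K F k Fk` a constant reduction, `r` a Deuring reduction of places
(`FF.IsReduction S r`), `x ∈ F` a function (in the application `x = j`) whose fibres are
compatible with `r` (`FibCompat`, seat RedFibre), `Θ : ℕ → Finset K` a sequence of finite sets of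
integral values whose residues are pairwise distinct for different indices.

* `fib x Θ m` : the places of `F` over the values of `Θ m`; `fibBar S x Θ m` the places of `Fk`
  over their residues (a `Finset`); `fibBar_disjoint`; `r (fib m) ⊆ fibBar m`;
* `exists_indices_good` : `g` distinct indices `m i`, off a given finite set, such that for EVERY
  tuple `P i ∈ fib (m i)` and every `X` of a finite family of divisors of degree `0`:
  `r_* (X + ∑ P i)` is good at `r Pinf` (special fibre) and `X + ∑ P i` is good at `Pinf`.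
-/

noncomputable section

open AlgebraicCurve

namespace Fermat.Agent.FFGoodEll

open Fermat.Agent.RR Fermat.Agent.Deuring Fermat.Agent.FF

variable {K F k Fk : Type*} [Field K] [Field F] [Algebra K F]
  [Field k] [Field Fk] [Algebra k Fk]

/-- the fibres of `x` are compatible with the reduction of places: a zero of `x - c`, `c ∈ A`,
reduces to a zero of `red x - res c`. -/
def FibCompat (S : ValSetup K F k Fk) (r : Place K F → Place k Fk) (x : F) : Prop :=
  ∀ (c : K) (hc : c ∈ S.A) (P : Place K F), 0 < P.ord (x - algebraMap K F c) →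
    0 < (r P).ord (S.red x - algebraMap k Fk (S.res ⟨c, hc⟩))

/-- a sequence of finite sets of integral values with pairwise distinct residues. -/
structure ValueSeq (S : ValSetup K F k Fk) where
  /-- the values -/
  Θ : ℕ → Finset K
  mem : ∀ m, ∀ t ∈ Θ m, t ∈ S.A
  res_ne : ∀ m m', m ≠ m' → ∀ t (ht : t ∈ Θ m) t' (ht' : t' ∈ Θ m'),
    S.res ⟨t, mem m t ht⟩ ≠ S.res ⟨t', mem m' t' ht'⟩

/-- the places of `F` over the values of `Θ m`. -/
def fib (x : F) (Θ : ℕ → Finset K) (m : ℕ) : Set (Place K F) :=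
  {P | ∃ t ∈ Θ m, 0 < P.ord (x - algebraMap K F t)}

theorem mem_fib {x : F} {Θ : ℕ → Finset K} {m : ℕ} {P : Place K F} :
    P ∈ fib x Θ m ↔ ∃ t ∈ Θ m, 0 < P.ord (x - algebraMap K F t) := Iff.rfl

theorem sub_const_ne_zero {x : F} (hx : Transcendental K x) (c : K) :
    x - algebraMap K F c ≠ 0 := by
  intro h0
  apply hx
  rw [sub_eq_zero.mp h0]
  exact isAlgebraic_algebraMap c

theorem finite_fib (h : IsRRField K F) (x : F) (Θ : ℕ → Finset K)
    (m : ℕ) : (fib x Θ m).Finite := by
  have : fib x Θ m = ⋃ t ∈ Θ m, {P : Place K F | 0 < P.ord (x - algebraMap K F t)} := by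
    ext P
    simp [fib]
  rw [this]
  exact Set.Finite.biUnion (Finset.finite_toSet _) fun t _ => finite_zeros h _

/-- every value has a place over it. -/
theorem exists_place_over (h : IsRRField K F) {x : F} (hx : Transcendental K x) (c : K) :
    ∃ P : Place K F, 0 < P.ord (x - algebraMap K F c) := by
  have hne := sub_const_ne_zero hx c
  have htr : Transcendental K (x - algebraMap K F c)⁻¹ := by
    intro halg
    apply hx
    have h1 : IsAlgebraic K (x - algebraMap K F c) := by
      have := halg.inv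
      rwa [inv_inv] at this
    have h2 := h1.add (isAlgebraic_algebraMap (R := K) (A := F) c)
    rwa [sub_add_cancel] at h2
  obtain ⟨P, hP⟩ := Fermat.Agent.RRHur.exists_pole h htr
  refine ⟨P, ?_⟩
  have h1 : P.ord (x - algebraMap K F c)⁻¹ < 0 :=
    (Fermat.Agent.RRHur.one_lt_adicValuation_iff P).mp hP
  rw [P.ord_inv] at h1
  omega

theorem fib_nonempty (h : IsRRField K F) {x : F} (hx : Transcendental K x) {Θ : ℕ → Finset K}
    {m : ℕ} (hΘ : (Θ m).Nonempty) : (fib x Θ m).Nonempty := by
  obtain ⟨t, ht⟩ := hΘ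
  obtain ⟨P, hP⟩ := exists_place_over h hx t
  exact ⟨P, t, ht, hP⟩

/-- a zero of `x - c` is not a zero of `x - c'`, `c' ≠ c`. -/
theorem ord_sub_const_le_zero (v : Place K F) {x : F} {c c' : K} (hcc : c ≠ c')
    (hv : 0 < v.ord (x - algebraMap K F c)) : ¬ 0 < v.ord (x - algebraMap K F c') := by
  intro hv'
  have h1 : algebraMap K F (c' - c) = (x - algebraMap K F c) - (x - algebraMap K F c') := by
    rw [map_sub]
    ring
  have hne : algebraMap K F (c' - c) ≠ 0 :=
    (map_ne_zero (algebraMap K F)).mpr (sub_ne_zero.mpr (Ne.symm hcc))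
  have h2 : v.adicValuation (algebraMap K F (c' - c)) < 1 := by
    rw [h1]
    refine lt_of_le_of_lt (Valuation.map_sub _ _ _) (max_lt ?_ ?_)
    · by_contra hcon
      push Not at hcon
      have := (Fermat.Agent.RRHur.adicValuation_le_one_iff' v (f := (x - algebraMap K F c)⁻¹)).mp
        (by rw [map_inv₀]; exact inv_le_one_of_one_le₀ hcon)
      rw [v.ord_inv] at this
      omega
    · by_contra hcon
      push Not at hcon
      have := (Fermat.Agent.RRHur.adicValuation_le_one_iff' v (f := (x - algebraMap K F c')⁻¹)).mp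
        (by rw [map_inv₀]; exact inv_le_one_of_one_le₀ hcon)
      rw [v.ord_inv] at this
      omega
  have h3 : 0 ≤ v.ord (algebraMap K F (c' - c)⁻¹) := by
    rw [← Fermat.Agent.RRHur.adicValuation_le_one_iff' v]
    exact v.adicValuation_algebraMap_le_one _
  have h4 : 0 < v.ord (algebraMap K F (c' - c)) := by
    by_contra hcon
    push Not at hcon
    have := (Fermat.Agent.RRHur.adicValuation_le_one_iff' v (f := (algebraMap K F (c' - c))⁻¹)).mp
      (by
        rw [← map_inv₀]
        exact v.adicValuation_algebraMap_le_one _)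
    have h5 : 1 ≤ v.adicValuation (algebraMap K F (c' - c)) := by
      by_contra hlt
      push Not at hlt
      have h6 : ¬ 0 ≤ v.ord (algebraMap K F (c' - c))⁻¹ := by
        rw [← Fermat.Agent.RRHur.adicValuation_le_one_iff' v, map_inv₀, not_le]
        exact (one_lt_inv₀ (by
          rw [pos_iff_ne_zero]
          exact v.adicValuation_ne_zero hne)).mpr hlt
      exact h6 this
    exact absurd h2 (not_lt.mpr h5)
  rw [map_inv₀, v.ord_inv] at h3
  omega

section Bar

variable (S : ValSetup K F k Fk)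

/-- the places of `Fk` over the residues of the values of `Θ m`. -/
def fibBarSet (x : F) (V : ValueSeq S) (m : ℕ) : Set (Place k Fk) :=
  {Q | ∃ t, ∃ ht : t ∈ V.Θ m, 0 < Q.ord (S.red x - algebraMap k Fk (S.res ⟨t, V.mem m t ht⟩))}

theorem finite_fibBarSet (x : F) (V : ValueSeq S) (m : ℕ) :
    (fibBarSet S x V m).Finite := by
  have : fibBarSet S x V m = ⋃ t ∈ (V.Θ m).attach,
      {Q : Place k Fk | 0 < Q.ord (S.red x - algebraMap k Fk (S.res ⟨t.1, V.mem m t.1 t.2⟩))} := by
    ext Q
    constructor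
    · rintro ⟨t, ht, hQ⟩
      exact Set.mem_biUnion (Finset.mem_coe.mpr (Finset.mem_attach _ ⟨t, ht⟩)) hQ
    · intro hQ
      obtain ⟨t, -, hQ⟩ := Set.mem_iUnion₂.mp hQ
      exact ⟨t.1, t.2, hQ⟩
  rw [this]
  exact Set.Finite.biUnion (Finset.finite_toSet _) fun t _ => finite_zeros S.hFk _

/-- the places of `Fk` over the residues of the values of `Θ m`, as a `Finset`. -/
def fibBar (x : F) (V : ValueSeq S) (m : ℕ) :
    Finset (Place k Fk) :=
  (finite_fibBarSet S x V m).toFinset

theorem mem_fibBar (x : F) (V : ValueSeq S) (m : ℕ)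
    (Q : Place k Fk) :
    Q ∈ fibBar S x V m ↔ ∃ t, ∃ ht : t ∈ V.Θ m,
      0 < Q.ord (S.red x - algebraMap k Fk (S.res ⟨t, V.mem m t ht⟩)) := by
  unfold fibBar
  rw [Set.Finite.mem_toFinset]
  rfl

theorem fibBar_disjoint (x : F) (V : ValueSeq S)
    (m m' : ℕ) (hmm : m ≠ m') : Disjoint (fibBar S x V m) (fibBar S x V m') := by
  rw [Finset.disjoint_left]
  intro Q hQ hQ'
  rw [mem_fibBar] at hQ hQ'
  obtain ⟨t, ht, h1⟩ := hQ
  obtain ⟨t', ht', h2⟩ := hQ'
  exact ord_sub_const_le_zero Q (V.res_ne m m' hmm t ht t' ht') h1 h2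

/-- a place of the fibre over `Θ m` reduces into the fibre over the residues. -/
theorem red_mem_fibBar {r : Place K F → Place k Fk} {x : F} (hc : FibCompat S r x)
    (V : ValueSeq S) {m : ℕ} {P : Place K F}
    (hP : P ∈ fib x V.Θ m) : r P ∈ fibBar S x V m := by
  obtain ⟨t, ht, hPt⟩ := hP
  rw [mem_fibBar]
  exact ⟨t, ht, hc t (V.mem m t ht) P hPt⟩

/-- **good tuples, uniformly** (FIB (d)): there are `g` distinct indices `m i`, off a given finite
set `T`, such that for EVERY tuple `P i ∈ fib (m i)` and every `X ∈ 𝒳` (divisors of degree `0`)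
the divisor `r_* (X + ∑ P i)` is good at `r Pinf` and `X + ∑ P i` is good at `Pinf`. -/
theorem exists_indices_good (hL : HasLattice S) {r : Place K F → Place k Fk}
    (hr : IsReduction S r) (hg : genusFF K F = genusFF k Fk) {x : F} (hc : FibCompat S r x)
    (V : ValueSeq S) (Pinf : Place K F)
    (𝒳 : Finset (Divisor K F)) (h𝒳 : ∀ X ∈ 𝒳, Divisor.degree X = 0) (T : Finset ℕ) :
    ∃ m : Fin (genusFF K F) → ℕ, Function.Injective m ∧ (∀ i, m i ∉ T) ∧
      ∀ P : Fin (genusFF K F) → Place K F, (∀ i, P i ∈ fib x V.Θ (m i)) →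
        ∀ X ∈ 𝒳, IsGoodDiv (r Pinf) (redDiv r (X + sumTuple P)) ∧ IsGoodDiv Pinf (X + sumTuple P) := by
  classical
  have key := exists_indices_isGoodDiv S.hFk (r Pinf) (fun m => fibBar S x V m)
    (fun m m' hmm => fibBar_disjoint S x V m m' hmm) (𝒳.image (redDiv r))
    (by
      intro X hX
      obtain ⟨X₀, hX₀, rfl⟩ := Finset.mem_image.mp hX
      rw [redDiv_apply, hr.deg, h𝒳 X₀ hX₀]) T
  rw [← hg] at key
  obtain ⟨m, hminj, hmT, hm⟩ := key
  refine ⟨m, hminj, hmT, fun P hP X hX => ?_⟩
  have h1 : IsGoodDiv (r Pinf) (redDiv r (X + sumTuple P)) := by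
    have := hm (fun i => r (P i)) (fun i => red_mem_fibBar S hc V (hP i)) (redDiv r X)
      (Finset.mem_image_of_mem _ hX)
    rw [map_add, redDiv_apply r (sumTuple P), mapDomain_sumTuple]
    exact this
  refine ⟨h1, ?_⟩
  exact IsGoodDiv.of_reduction S hL hr.push hg (by rwa [redDiv_apply] at h1)

/-- only finitely many indices `m` have a value whose residue lies in a given finite set `B`
(the residues for different indices are different). -/
theorem ValueSeq.finite_bad (V : ValueSeq S) {B : Set k} (hB : B.Finite) :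
    {m : ℕ | ∃ t, ∃ ht : t ∈ V.Θ m, S.res ⟨t, V.mem m t ht⟩ ∈ B}.Finite := by
  classical
  refine Set.Finite.of_injOn (f := fun m : ℕ =>
      if h : ∃ t, ∃ ht : t ∈ V.Θ m, S.res ⟨t, V.mem m t ht⟩ ∈ B then
        S.res ⟨h.choose, V.mem m _ h.choose_spec.choose⟩ else 0) (t := B) ?_ ?_ hB
  · intro m hm
    have hm' : ∃ t, ∃ ht : t ∈ V.Θ m, S.res ⟨t, V.mem m t ht⟩ ∈ B := hm
    show (if h : ∃ t, ∃ ht : t ∈ V.Θ m, S.res ⟨t, V.mem m t ht⟩ ∈ B then
        S.res ⟨h.choose, V.mem m _ h.choose_spec.choose⟩ else 0) ∈ B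
    rw [dif_pos hm']
    exact hm'.choose_spec.choose_spec
  · intro m hm m' hm' heq
    have h1 : ∃ t, ∃ ht : t ∈ V.Θ m, S.res ⟨t, V.mem m t ht⟩ ∈ B := hm
    have h2 : ∃ t, ∃ ht : t ∈ V.Θ m', S.res ⟨t, V.mem m' t ht⟩ ∈ B := hm'
    simp only [dif_pos h1, dif_pos h2] at heq
    by_contra hne
    exact V.res_ne m m' hne _ h1.choose_spec.choose _ h2.choose_spec.choose heq

end Bar

end Fermat.Agent.FFGoodEll
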