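import Mathlib
import Fermat.Agent.Lib.FF.GoodEll.Fib
import Fermat.Agent.Lib.Cyclo.RootsReduce

set_option autoImplicit false

/-!
# FF / S19, route R-G, seat FIB (a): the value sets `Θ m` (helper20)

`Θ m :=` the primitive `(ℓ m + 1)`-th roots of unity of `K`.  They are integral at every
valuation ring, stable under every field automorphism, nonempty (for `K` algebraically closed of
characteristic `0`), and the residues of `Θ m`, `Θ m'` are disjoint for `m ≠ m'` at every place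
over `ℓ` (roots of unity of order prime to `ℓ` do not collapse under reduction).

So `Θ m` plays the role of the roots of a monic `f_m ∈ ℤ[X]` which is separable mod `ℓ` and
coprime mod `ℓ` to `f_m'`, `m' ≠ m` (`f_m` = the cyclotomic polynomial `Φ_{ℓ m + 1}`).
-/

noncomputable section

open AlgebraicCurve

namespace Fermat.Agent.FFGoodEll

open Fermat.Agent.RR Fermat.Agent.Deuring Fermat.Agent.FF

variable {K F k Fk : Type*} [Field K] [Field F] [Algebra K F]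
  [Field k] [Field Fk] [Algebra k Fk]

/-- the orders `ℓ m + 1`: pairwise distinct and prime to `ℓ`. -/
def cycloN (ℓ m : ℕ) : ℕ := ℓ * m + 1

theorem cycloN_pos (ℓ m : ℕ) : 0 < cycloN ℓ m := Nat.succ_pos _

theorem cycloN_ne_zero (ℓ m : ℕ) : cycloN ℓ m ≠ 0 := Nat.succ_ne_zero _

theorem cycloN_injective {ℓ : ℕ} (hℓ : ℓ.Prime) : Function.Injective (cycloN ℓ) := by
  intro m m' h
  unfold cycloN at h
  have := Nat.eq_of_mul_eq_mul_left hℓ.pos (Nat.succ_injective h)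
  exact this

theorem not_dvd_cycloN {ℓ : ℕ} (hℓ : ℓ.Prime) (m : ℕ) : ¬ ℓ ∣ cycloN ℓ m := by
  intro h
  unfold cycloN at h
  have h1 : ℓ ∣ 1 := (Nat.dvd_add_right (dvd_mul_right ℓ m)).mp h
  exact hℓ.one_lt.ne' (Nat.dvd_one.mp h1)

/-- the value sets: primitive roots of unity of order `ℓ m + 1`. -/
def cycloΘ (K : Type*) [Field K] (ℓ m : ℕ) : Finset K := primitiveRoots (cycloN ℓ m) K

theorem mem_cycloΘ {ℓ m : ℕ} {t : K} : t ∈ cycloΘ K ℓ m ↔ IsPrimitiveRoot t (cycloN ℓ m) :=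
  mem_primitiveRoots (cycloN_pos ℓ m)

theorem cycloΘ_mem_valuationSubring (A : ValuationSubring K) {ℓ m : ℕ} {t : K}
    (ht : t ∈ cycloΘ K ℓ m) : t ∈ A :=
  Fermat.Agent.Cyclo.pow_eq_one_mem A (cycloN_ne_zero ℓ m) (mem_cycloΘ.mp ht).pow_eq_one

theorem cycloΘ_map {ℓ m : ℕ} {t : K} (ht : t ∈ cycloΘ K ℓ m) (σ : K →+* K) :
    σ t ∈ cycloΘ K ℓ m := by
  rw [mem_cycloΘ] at ht ⊢
  exact ht.map_of_injective σ.injective

theorem cycloΘ_nonempty [IsAlgClosed K] [CharZero K] (ℓ m : ℕ) : (cycloΘ K ℓ m).Nonempty := by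
  have : NeZero ((cycloN ℓ m : ℕ) : K) := ⟨Nat.cast_ne_zero.mpr (cycloN_ne_zero ℓ m)⟩
  obtain ⟨ζ, hζ⟩ := IsAlgClosed.exists_root (Polynomial.cyclotomic (cycloN ℓ m) K)
    (by
      rw [Polynomial.degree_cyclotomic]
      exact_mod_cast (Nat.totient_pos.mpr (cycloN_pos ℓ m)).ne')
  exact ⟨ζ, mem_cycloΘ.mpr (Polynomial.isRoot_cyclotomic_iff.mp hζ)⟩

/-- the kernel of the residue map of the constants is the maximal ideal. -/
theorem mem_nonunits_of_res_eq_zero (S : ValSetup K F k Fk) (c : S.A) (hc : S.res c = 0) :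
    (c : K) ∈ S.A.nonunits := by
  rw [ValuationSubring.coe_mem_nonunits_iff]
  intro hunit
  have hcO : algebraMap K F (c : K) ∈ S.Ov := (S.mem_Ov_iff _).mpr c.2
  have h1 : S.ρ ⟨algebraMap K F (c : K), hcO⟩ = 0 := by
    rw [S.ρ_algebraMap (c : K) c.2 hcO]
    have : (⟨(c : K), c.2⟩ : S.A) = c := rfl
    rw [this, hc, map_zero]
  have h2 := (S.ρ_eq_zero_iff _).mp h1
  apply h2
  obtain ⟨u, hu⟩ := hunit
  have hinvO : algebraMap K F (((u⁻¹ : S.Aˣ) : S.A) : K) ∈ S.Ov := (S.mem_Ov_iff _).mpr (Subtype.mem _)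
  refine isUnit_iff_exists_inv.mpr ⟨⟨_, hinvO⟩, ?_⟩
  apply Subtype.ext
  show algebraMap K F (c : K) * algebraMap K F (((u⁻¹ : S.Aˣ) : S.A) : K) = 1
  rw [← map_mul, ← hu]
  have hmi : (u : S.A) * ((u⁻¹ : S.Aˣ) : S.A) = 1 := u.mul_inv
  have : ((u : S.A) : K) * (((u⁻¹ : S.Aˣ) : S.A) : K) = 1 := by
    exact_mod_cast congrArg (fun a : S.A => (a : K)) hmi
  rw [this, map_one]

/-- **the value sequence** of seat FIB: `Θ m` = primitive `(ℓ m + 1)`-th roots of unity. -/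
def cycloValueSeq (S : ValSetup K F k Fk) {ℓ : ℕ} (hℓ : ℓ.Prime) (hA : S.A.LiesOverPrime ℓ) :
    ValueSeq S where
  Θ := cycloΘ K ℓ
  mem := fun _ _ ht => cycloΘ_mem_valuationSubring S.A ht
  res_ne := by
    intro m m' hmm t ht t' ht' hres
    apply hmm
    apply cycloN_injective hℓ
    have hζ := mem_cycloΘ.mp ht
    have hζ' := mem_cycloΘ.mp ht'
    have htA := cycloΘ_mem_valuationSubring S.A ht
    have ht'A := cycloΘ_mem_valuationSubring S.A ht'
    -- `t - t' ∈ 𝔪`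
    have hsub : S.res (⟨t, htA⟩ - ⟨t', ht'A⟩) = 0 := by
      rw [map_sub, hres, sub_self]
    have hnon : t - t' ∈ S.A.nonunits := mem_nonunits_of_res_eq_zero S _ hsub
    have ht'0 : t' ≠ 0 := hζ'.ne_zero (cycloN_ne_zero ℓ m')
    have hinvA : t'⁻¹ ∈ S.A := by
      refine Fermat.Agent.Cyclo.pow_eq_one_mem S.A (cycloN_ne_zero ℓ m') ?_
      rw [inv_pow, hζ'.pow_eq_one, inv_one]
    have hξ : t * t'⁻¹ - 1 ∈ S.A.nonunits := by
      have : t * t'⁻¹ - 1 = (t - t') * t'⁻¹ := by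
        field_simp
      rw [this]
      exact Fermat.Agent.Cyclo.nonunits_mul_mem S.A hnon hinvA
    have hpow : (t * t'⁻¹) ^ (cycloN ℓ m * cycloN ℓ m') = 1 := by
      rw [mul_pow, pow_mul, hζ.pow_eq_one, one_pow, inv_pow, mul_comm (cycloN ℓ m), pow_mul,
        hζ'.pow_eq_one, one_pow, inv_one, one_mul]
    have hnd : ¬ ℓ ∣ cycloN ℓ m * cycloN ℓ m' := by
      intro h
      rcases (Nat.Prime.dvd_mul hℓ).mp h with h | h
      · exact not_dvd_cycloN hℓ m h
      · exact not_dvd_cycloN hℓ m' h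
    have h1 := Fermat.Agent.Cyclo.eq_one_of_sub_one_mem_nonunits S.A
      (Nat.mul_ne_zero (cycloN_ne_zero ℓ m) (cycloN_ne_zero ℓ m')) hpow
      (Fermat.Agent.Cyclo.natCast_not_mem_nonunits S.A hℓ hA hnd) hξ
    have htt : t = t' := by
      have := congrArg (· * t') h1
      simpa [mul_assoc, inv_mul_cancel₀ ht'0] using this
    rw [htt] at hζ
    exact hζ.unique hζ'

@[simp]
theorem cycloValueSeq_Θ (S : ValSetup K F k Fk) {ℓ : ℕ} (hℓ : ℓ.Prime)
    (hA : S.A.LiesOverPrime ℓ) (m : ℕ) : (cycloValueSeq S hℓ hA).Θ m = cycloΘ K ℓ m := rfl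

end Fermat.Agent.FFGoodEll
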