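import Mathlib
import Fermat.Agent.Lib.FF.GoodEll.Cyclo

set_option autoImplicit false

/-!
# FF / S19, seat FIB: unit differences of roots of unity (helper20)

`A` a valuation ring of `K` over `ℓ`; `t ∈ Θ m`, `t' ∈ Θ m'` roots of unity of orders prime to `ℓ`.
If `t ≠ t'` then `t - t'` is a unit of `A` (`A.valuation (t - t') = 1`); the elements of `Θ m` are
integral over any subring.
-/

noncomputable section

namespace Fermat.Agent.FFGoodEll

variable {K : Type*} [Field K]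

/-- roots of unity of orders prime to `ℓ` which are congruent modulo the maximal ideal are
equal. -/
theorem cycloΘ_eq_of_sub_mem_nonunits (A : ValuationSubring K) {ℓ : ℕ} (hℓ : ℓ.Prime)
    (hA : A.LiesOverPrime ℓ) {m m' : ℕ} {t t' : K} (ht : t ∈ cycloΘ K ℓ m)
    (ht' : t' ∈ cycloΘ K ℓ m') (hnon : t - t' ∈ A.nonunits) : t = t' := by
  have hζ := mem_cycloΘ.mp ht
  have hζ' := mem_cycloΘ.mp ht'
  have ht'0 : t' ≠ 0 := hζ'.ne_zero (cycloN_ne_zero ℓ m')
  have hinvA : t'⁻¹ ∈ A := by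
    refine Fermat.Agent.Cyclo.pow_eq_one_mem A (cycloN_ne_zero ℓ m') ?_
    rw [inv_pow, hζ'.pow_eq_one, inv_one]
  have hξ : t * t'⁻¹ - 1 ∈ A.nonunits := by
    have : t * t'⁻¹ - 1 = (t - t') * t'⁻¹ := by
      field_simp
    rw [this]
    exact Fermat.Agent.Cyclo.nonunits_mul_mem A hnon hinvA
  have hpow : (t * t'⁻¹) ^ (cycloN ℓ m * cycloN ℓ m') = 1 := by
    rw [mul_pow, pow_mul, hζ.pow_eq_one, one_pow, inv_pow, mul_comm (cycloN ℓ m), pow_mul,
      hζ'.pow_eq_one, one_pow, inv_one, one_mul]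
  have hnd : ¬ ℓ ∣ cycloN ℓ m * cycloN ℓ m' := by
    intro h
    rcases (Nat.Prime.dvd_mul hℓ).mp h with h | h
    · exact not_dvd_cycloN hℓ m h
    · exact not_dvd_cycloN hℓ m' h
  have h1 := Fermat.Agent.Cyclo.eq_one_of_sub_one_mem_nonunits A
    (Nat.mul_ne_zero (cycloN_ne_zero ℓ m) (cycloN_ne_zero ℓ m')) hpow
    (Fermat.Agent.Cyclo.natCast_not_mem_nonunits A hℓ hA hnd) hξ
  have := congrArg (· * t') h1
  simpa [mul_assoc, inv_mul_cancel₀ ht'0] using this

/-- **unit differences**: distinct roots of unity of orders prime to `ℓ` differ by a unit. -/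
theorem valuation_sub_cycloΘ (A : ValuationSubring K) {ℓ : ℕ} (hℓ : ℓ.Prime)
    (hA : A.LiesOverPrime ℓ) {m m' : ℕ} {t t' : K} (ht : t ∈ cycloΘ K ℓ m)
    (ht' : t' ∈ cycloΘ K ℓ m') (hne : t ≠ t') : A.valuation (t - t') = 1 := by
  have hmem : t - t' ∈ A :=
    sub_mem (cycloΘ_mem_valuationSubring A ht) (cycloΘ_mem_valuationSubring A ht')
  have h1 : A.valuation (t - t') ≤ 1 := (A.valuation_le_one_iff _).mpr hmem
  have h2 : ¬ A.valuation (t - t') < 1 := by
    intro hlt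
    apply hne
    exact cycloΘ_eq_of_sub_mem_nonunits A hℓ hA ht ht' (A.mem_nonunits_iff.mpr hlt)
  exact le_antisymm h1 (not_lt.mp h2)

/-- the elements of `Θ m` are integral over every subring. -/
theorem isIntegral_cycloΘ (R : Type*) [CommRing R] [Algebra R K] {ℓ m : ℕ} {t : K}
    (ht : t ∈ cycloΘ K ℓ m) : IsIntegral R t := by
  have hζ := mem_cycloΘ.mp ht
  refine IsIntegral.of_pow (cycloN_pos ℓ m) ?_
  rw [hζ.pow_eq_one]
  exact isIntegral_one

end Fermat.Agent.FFGoodEll
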