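import Mathlib
import Fermat.Agent.Lib.FF.GoodEll.Cyclo
import Fermat.Agent.Lib.FF.RedValue
import Fermat.Agent.Lib.FF.GeomDefs

set_option autoImplicit false
set_option linter.style.haveILetI false

/-!
# FF / S19, route R-G, seat FIB (a)(b)(d): the fibres of a `GeomSetup` (helper20)

Abstract in the function field (`𝒮 : FF.GeomSetup p F Fk A₀`), for a Galois-fixed function `x`
(in the application `x = j`) which is integral for the constant reduction, with transcendental
reduction `x̄` and `deg (x̄)_∞ = deg (x)_∞`: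

* `fibCompat_of_isReduction` : `FibCompat S r x` (helper24's `IsReduction.ord_red_sub_pos`);
* `smul_mem_fib`             : the fibre `fib x Θ m` is stable under a semilinear automorphism
                               fixing `x` and mapping `Θ m` into itself;
* `isGoodDiv_redDiv_congr`   : goodness of `r_* (X + Y)` only depends on the class of `X`;
* `cycloFib 𝒮 x m`           : the places over the primitive `(p m + 1)`-th roots of unity, with
                               `finite_cycloFib`, `cycloFib_nonempty`, `gal_smul_mem_cycloFib`;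
* `exists_indices_goodFibres`: `g` distinct indices `m i` off a given finite set `T` such that
                               EVERY tuple `τ i ∈ cycloFib 𝒮 x (m i)` is good for EVERY `w ∈ W` and
                               EVERY divisor `X` of class `ι w` — the fields `Fib`, `fin`,
                               `nonempty`, `stable`, `good` of `FF.GoodFibres`.
-/

noncomputable section

open AlgebraicCurve

namespace Fermat.Agent.FFGoodEll

open Fermat.Agent.RR Fermat.Agent.Deuring Fermat.Agent.FF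

section Abstract

variable {K F k Fk : Type*} [Field K] [Field F] [Algebra K F]
  [Field k] [Field Fk] [Algebra k Fk]

/-- the fibres of `x` are compatible with the reduction of places (helper24, RedValue). -/
theorem fibCompat_of_isReduction {S : ValSetup K F k Fk} {r : Place K F → Place k Fk}
    (hr : IsReduction S r) {x : F} (hx : x ∈ S.Ov) (htr : Transcendental k (S.red x))
    (hdeg : Divisor.degree (poleDiv S.hFk (S.red x)) = Divisor.degree (poleDiv S.hF x)) :
    FibCompat S r x :=
  fun _ hc _ hP => hr.ord_red_sub_pos hx htr hdeg hc hP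

/-- the fibre `fib x Θ m` is stable under a semilinear automorphism `g` fixing `x` and mapping
`Θ m` into itself. -/
theorem smul_mem_fib (g : SemilinearAut K F) {x : F} (hgx : g • x = x) {Θ : ℕ → Finset K}
    {m : ℕ} (hΘ : ∀ t ∈ Θ m, SemilinearAut.baseAut g t ∈ Θ m) {P : Place K F} (hP : P ∈ fib x Θ m) :
    g • P ∈ fib x Θ m := by
  obtain ⟨t, ht, hPt⟩ := hP
  refine ⟨SemilinearAut.baseAut g t, hΘ t ht, ?_⟩
  have h1 : g • (x - algebraMap K F t) = x - algebraMap K F (SemilinearAut.baseAut g t) := by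
    rw [smul_sub, hgx, SemilinearAut.smul_algebraMap]
  rw [← h1, SemilinearAut.ord_smul]
  exact hPt

/-- goodness of `r_* (X + Y)` only depends on the linear equivalence class of `X`. -/
theorem isGoodDiv_redDiv_congr {S : ValSetup K F k Fk} {r : Place K F → Place k Fk}
    (hr : IsReduction S r) {Q : Place k Fk} {X X' Y : Divisor K F}
    (hXX' : X - X' ∈ Divisor.principal (K := K) (F := F))
    (h : IsGoodDiv Q (redDiv r (X' + Y))) : IsGoodDiv Q (redDiv r (X + Y)) := by
  obtain ⟨f, hf, hfD⟩ := hr.mem_principal hXX'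
  have e : redDiv r (X + Y) = redDiv r (X' + Y) + divOf S.hFk f := by
    have e1 : redDiv r (X - X') = divOf S.hFk f := by
      ext v
      rw [hfD v, divOf_apply]
    rw [← e1, ← map_add]
    congr 1
    abel
  rw [e]
  exact h.add_divOf S.hFk hf

end Abstract

section Geom

local notation "Kb" => AlgebraicClosure ℚ
local notation "GK" => (AlgebraicClosure ℚ ≃ₐ[ℚ] AlgebraicClosure ℚ)

variable {p : ℕ} {F Fk : Type} [Field F] [Algebra Kb F] {A₀ : ValuationSubring Kb} [Field Fk]
  [Algebra (IsLocalRing.ResidueField A₀) Fk]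

/-- the place `A₀` as the valuation ring of the constant reduction. -/
theorem GeomSetup_liesOver (𝒮 : GeomSetup p F Fk A₀) : 𝒮.S.A.LiesOverPrime p := by
  rw [𝒮.S_A]
  exact 𝒮.hA₀

/-- the value sequence of a `GeomSetup`: primitive `(p m + 1)`-th roots of unity. -/
def geomValueSeq (𝒮 : GeomSetup p F Fk A₀) (hp : p.Prime) : ValueSeq 𝒮.S :=
  cycloValueSeq 𝒮.S hp (GeomSetup_liesOver 𝒮)

/-- **the fibres**: the places of `F` over the primitive `(p m + 1)`-th roots of unity. -/
def cycloFib (p : ℕ) (x : F) (m : ℕ) : Set (Place Kb F) :=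
  fib x (cycloΘ Kb p) m

theorem mem_cycloFib {x : F} {m : ℕ} {P : Place Kb F} :
    P ∈ cycloFib p x m ↔ ∃ t, IsPrimitiveRoot t (cycloN p m) ∧
      0 < P.ord (x - algebraMap Kb F t) := by
  unfold cycloFib
  rw [mem_fib]
  constructor
  · rintro ⟨t, ht, h⟩
    exact ⟨t, mem_cycloΘ.mp ht, h⟩
  · rintro ⟨t, ht, h⟩
    exact ⟨t, mem_cycloΘ.mpr ht, h⟩

theorem finite_cycloFib (h : IsRRField Kb F) (x : F) (m : ℕ) : (cycloFib p x m).Finite :=
  finite_fib h x _ m

theorem cycloFib_nonempty (h : IsRRField Kb F) {x : F} (hx : Transcendental Kb x) (m : ℕ) :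
    (cycloFib p x m).Nonempty :=
  fib_nonempty h hx (cycloΘ_nonempty p m)

/-- the fibres for different indices are disjoint. -/
theorem cycloFib_disjoint (hp : p.Prime) (x : F) {m m' : ℕ} (hmm : m ≠ m') :
    Disjoint (cycloFib p x m) (cycloFib (F := F) p x m') := by
  rw [Set.disjoint_left]
  intro P hP hP'
  obtain ⟨t, ht, h1⟩ := mem_cycloFib.mp hP
  obtain ⟨t', ht', h2⟩ := mem_cycloFib.mp hP'
  have hne : t ≠ t' := by
    rintro rfl
    exact hmm (cycloN_injective hp (ht.unique ht'))
  exact ord_sub_const_le_zero P hne h1 h2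

/-- the fibres are Galois stable. -/
theorem gal_smul_mem_cycloFib (𝒮 : GeomSetup p F Fk A₀) {x : F}
    (hfix : ∀ σ : GK, 𝒮.gal σ • x = x) (m : ℕ) (σ : GK) {P : Place Kb F}
    (hP : P ∈ cycloFib p x m) : 𝒮.gal σ • P ∈ cycloFib p x m := by
  refine smul_mem_fib (𝒮.gal σ) (hfix σ) (fun t ht => ?_) hP
  have h1 : SemilinearAut.baseAut (𝒮.gal σ) t = σ t := by
    apply (algebraMap Kb F).injective
    rw [← SemilinearAut.smul_algebraMap, 𝒮.gal_base]
  rw [h1]
  exact cycloΘ_map ht (σ : Kb →+* Kb)

/-- the value of `x` on the fibre: `P ∈ cycloFib p x m` lies over exactly one root of unity. -/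
theorem exists_unique_value {x : F} {m : ℕ} {P : Place Kb F} (hP : P ∈ cycloFib p x m) :
    ∃! t : Kb, IsPrimitiveRoot t (cycloN p m) ∧ 0 < P.ord (x - algebraMap Kb F t) := by
  obtain ⟨t, ht, h⟩ := mem_cycloFib.mp hP
  refine ⟨t, ⟨ht, h⟩, fun t' ht' => ?_⟩
  by_contra hne
  exact ord_sub_const_le_zero P hne ht'.2 h

/-- **FIB (d)**: there are `g` distinct indices `m i`, off a given finite set `T`, such that EVERY
tuple `τ i ∈ cycloFib p x (m i)` is good at `A₀`, for every `w ∈ W` and every divisor `X` of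
degree `0` and class `ι w` (and then also good in characteristic `0`). -/
theorem exists_indices_goodFibres (𝒮 : GeomSetup p F Fk A₀) (hp : p.Prime)
    {W : Type} [AddCommGroup W] [Finite W] (ι : W →+ Pic0 Kb F)
    {x : F} (hx : x ∈ 𝒮.S.Ov)
    (htr : Transcendental (IsLocalRing.ResidueField A₀) (𝒮.S.red x))
    (hdeg : Divisor.degree (poleDiv 𝒮.S.hFk (𝒮.S.red x)) = Divisor.degree (poleDiv 𝒮.S.hF x))
    (T : Finset ℕ) :
    ∃ m : Fin (genusFF Kb F) → ℕ, Function.Injective m ∧ (∀ i, m i ∉ T) ∧
      ∀ τ : Fin (genusFF Kb F) → Place Kb F, (∀ i, τ i ∈ cycloFib p x (m i)) →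
        ∀ (w : W) (X : Divisor Kb F) (hX : X ∈ Divisor.degZero (K := Kb) (F := F)),
          Pic0.mk ⟨X, hX⟩ = ι w →
            IsGoodDiv (𝒮.r 𝒮.oo) (redDiv 𝒮.r (X + sumTuple τ)) ∧
              IsGoodDiv 𝒮.oo (X + sumTuple τ) := by
  classical
  letI : Fintype W := Fintype.ofFinite W
  -- representatives
  have hrep : ∀ w : W, ∃ D : Divisor.degZero (K := Kb) (F := F), Pic0.mk D = ι w :=
    fun w => Pic0.mk_surjective (ι w)
  choose D hD using hrep
  obtain ⟨m, hminj, hmT, hm⟩ := exists_indices_good 𝒮.S 𝒮.hL 𝒮.hr 𝒮.hg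
    (fibCompat_of_isReduction 𝒮.hr hx htr hdeg) (geomValueSeq 𝒮 hp) 𝒮.oo
    (Finset.univ.image fun w => (D w : Divisor Kb F))
    (by
      intro X hX
      obtain ⟨w, -, rfl⟩ := Finset.mem_image.mp hX
      exact (D w).2) T
  refine ⟨m, hminj, hmT, fun τ hτ w X hX hXw => ?_⟩
  have h0 := hm τ hτ (D w : Divisor Kb F) (Finset.mem_image_of_mem _ (Finset.mem_univ w))
  have hXX' : X - (D w : Divisor Kb F) ∈ Divisor.principal (K := Kb) (F := F) := by
    have h1 : Pic0.mk ⟨X, hX⟩ = Pic0.mk (D w) := hXw.trans (hD w).symm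
    have h2 := (QuotientAddGroup.eq (s := (Divisor.principal (K := Kb) (F := F)).addSubgroupOf
      (Divisor.degZero (K := Kb) (F := F)))).mp h1
    rw [AddSubgroup.mem_addSubgroupOf] at h2
    have h3 : (((-⟨X, hX⟩ + D w : Divisor.degZero (K := Kb) (F := F))) : Divisor Kb F)
        = -(X - (D w : Divisor Kb F)) := by
      rw [AddSubgroup.coe_add, AddSubgroup.coe_neg]
      abel
    rw [h3] at h2
    exact (AddSubgroup.neg_mem_iff _).mp h2
  have h1 : IsGoodDiv (𝒮.r 𝒮.oo) (redDiv 𝒮.r (X + sumTuple τ)) :=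
    isGoodDiv_redDiv_congr 𝒮.hr hXX' h0.1
  refine ⟨h1, ?_⟩
  exact IsGoodDiv.of_reduction 𝒮.S 𝒮.hL 𝒮.hr.push 𝒮.hg (by rwa [redDiv_apply] at h1)

end Geom

end Fermat.Agent.FFGoodEll
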