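import Mathlib
import Fermat.Agent.Lib.FF.GoodEll.FibGeom
import Fermat.Agent.Lib.FF.GalAct
import Fermat.Agent.Lib.IgusaDeg.JInput

set_option autoImplicit false
set_option linter.style.haveILetI false
set_option linter.unusedSectionVars false
set_option synthInstance.maxHeartbeats 400000
set_option maxHeartbeats 1000000

/-!
# FF / S19, route R-G, seat FIB: the modular instance `x = j` (helper20)

For `S = GaussInt.modularValSetup A ℓ M hℓ hA hℓM`, `r = FF.redPlace A ℓ M hℓ hA hℓM hg` and the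
Galois action `FFGal.galQ M`, the function `j = S24.jBar M` satisfies all hypotheses of
`FibGeom.lean`:

* `jBar_mem_Ov`, `transcendental_red_jBar`, `degree_poleDiv_red_jBar` (`deg (j̄)_∞ = deg (j)_∞`),
* `galQ_smul_jBar` (`σ j = j`),
* `fibCompat_jBar` : a place over `j = t`, `t ∈ A`, reduces to a place over `j̄ = t̄`.
-/

noncomputable section

open AlgebraicCurve ModularCurve IntermediateField

namespace Fermat.Agent.FFGoodEll

open Fermat.Agent.RR Fermat.Agent.Deuring Fermat.Agent.FF Fermat.Agent.GaussInt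

section Modular

variable (A : ValuationSubring (AlgebraicClosure ℚ)) (ℓ M : ℕ) [NeZero M]
  (hℓ : ℓ.Prime) (hA : A.LiesOverPrime ℓ) (hℓM : ¬ ℓ ∣ M)

/-- `j` is integral for the Gauss valuation. -/
theorem jBar_mem_Ov : Fermat.Agent.S24.jBar M ∈ (modularValSetup A ℓ M hℓ hA hℓM).Ov :=
  Fermat.Agent.GoodRed.jBar_mem_gaussValSub M hℓ hA

/-- the reduction `j̄` of `j` is transcendental. -/
theorem transcendental_red_jBar :
    Transcendental (IsLocalRing.ResidueField A)
      ((modularValSetup A ℓ M hℓ hA hℓM).red (Fermat.Agent.S24.jBar M)) := by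
  haveI : IsAlgClosed (IsLocalRing.ResidueField A) := isAlgClosed_residue A
  rw [modularValSetup_red_jBar A ℓ M hℓ hA hℓM]
  exact Fermat.Agent.RRMod.transcendental_jC (IsLocalRing.ResidueField A) M

/-- `deg (j̄)_∞ = deg (j)_∞` (`= ψ(M)`). -/
theorem degree_poleDiv_red_jBar :
    Divisor.degree (poleDiv (modularValSetup A ℓ M hℓ hA hℓM).hFk
        ((modularValSetup A ℓ M hℓ hA hℓM).red (Fermat.Agent.S24.jBar M))) =
      Divisor.degree (poleDiv (modularValSetup A ℓ M hℓ hA hℓM).hF (Fermat.Agent.S24.jBar M)) := by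
  haveI : IsAlgClosed (IsLocalRing.ResidueField A) := isAlgClosed_residue A
  have hred := modularValSetup_red_jBar A ℓ M hℓ hA hℓM
  have htr := transcendental_red_jBar A ℓ M hℓ hA hℓM
  rw [hred] at htr ⊢
  haveI := Fermat.Agent.S24.finiteDimensional_adjoin_jBar M
  haveI := Fermat.Agent.RRMod.finiteDimensional_fullC' (IsLocalRing.ResidueField A) M
  rw [Fermat.Agent.RRHur.degree_poleDiv_eq_finrank (modularValSetup A ℓ M hℓ hA hℓM).hFk htr,
    Fermat.Agent.RRHur.degree_poleDiv_eq_finrank (modularValSetup A ℓ M hℓ hA hℓM).hF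
      (Fermat.Agent.S24.transcendental_jBar M),
    Fermat.Agent.IgusaDeg.finrank_jBar_eq_finrank_jC M hℓ hA hℓM]

/-- `σ j = j`: the `q`-expansion of `j` has rational coefficients. -/
theorem galQ_smul_jBar (σ : AlgebraicClosure ℚ ≃ₐ[ℚ] AlgebraicClosure ℚ) :
    Fermat.Agent.FFGal.galQ M σ • Fermat.Agent.S24.jBar M = Fermat.Agent.S24.jBar M := by
  apply Subtype.ext
  rw [Fermat.Agent.FFGal.coe_galQ_smul, Fermat.Agent.S24.coe_jBar_eq_jqModC,
    ModularCurve.coeffMap_jqModC]

/-- a place over `j = t`, `t ∈ A`, reduces to a place over `j̄ = t̄`. -/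
theorem fibCompat_jBar
    (hg : genusFF (AlgebraicClosure ℚ) (modularFunctionFieldBar M) =
      genusFF (IsLocalRing.ResidueField A)
        (modularFunctionFieldFullC (IsLocalRing.ResidueField A) M)) :
    FibCompat (modularValSetup A ℓ M hℓ hA hℓM) (redPlace A ℓ M hℓ hA hℓM hg)
      (Fermat.Agent.S24.jBar M) :=
  fibCompat_of_isReduction (isReduction_redPlace A ℓ M hℓ hA hℓM hg)
    (jBar_mem_Ov A ℓ M hℓ hA hℓM) (transcendental_red_jBar A ℓ M hℓ hA hℓM)
    (degree_poleDiv_red_jBar A ℓ M hℓ hA hℓM)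

end Modular

end Fermat.Agent.FFGoodEll
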