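import Mathlib
import Fermat.Agent.Lib.FF.GoodEll.Modular
import Fermat.Agent.Lib.FF.GoodEll.CycloUnit
import Fermat.Agent.Lib.FF.FibSep
import Fermat.Agent.Lib.FF.ModSetup

set_option autoImplicit false
set_option linter.style.haveILetI false
set_option linter.unusedSectionVars false
set_option synthInstance.maxHeartbeats 400000
set_option maxHeartbeats 1000000

/-!
# FF / S19, route R-G, seat FIB: ASSEMBLY of the good fibres for the modular setup (helper20)

For `𝒮 = FF.modGeomSetup A₀ ℓ M hℓ hA hℓM h49` and a finite group `W` with `ι : W →+ Pic⁰`: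

`exists_modFibres` : there are fibres `Fib i` (`i : Fin g`, `g` the genus; `Fib i` = the places over
the primitive `(ℓ m_i + 1)`-th roots of unity under `j`), a finite family `J` of separating value
functions `s i j : Place → ℚ̄` (`J = Option (Fin n)`: the value of `j`, and the values of a rational
orthonormal basis of `L((2g+1) ∞)`, helper24 FIB (c)) with: `Fib i` finite, nonempty, Galois
stable; `s` integral, equivariant, separating the points of `Fib i` by units at `A₀`; and EVERY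
tuple `τ ∈ Π Fib i` is good at `A₀` for every `w ∈ W`.

These are exactly the fields of `FF.GoodFibres` (family form).
-/

noncomputable section

open AlgebraicCurve ModularCurve

namespace Fermat.Agent.FFGoodEll

open Fermat.Agent.RR Fermat.Agent.Deuring Fermat.Agent.FF Fermat.Agent.GaussInt GaloisRep

local notation "Kb" => AlgebraicClosure ℚ
local notation "GK" => (AlgebraicClosure ℚ ≃ₐ[ℚ] AlgebraicClosure ℚ)

variable (A₀ : ValuationSubring Kb) (ℓ M : ℕ) [NeZero M]
  (hℓ : ℓ.Prime) (hA : A₀.LiesOverPrime ℓ) (hℓM : ¬ ℓ ∣ M) (h49 : 4 ∣ M ∨ 9 ∣ M)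

/-- the indices `m` such that some root of unity of `Θ m` reduces to a ramified value of `j̄`. -/
def badIndices : Set ℕ :=
  {m | ∃ t, ∃ ht : t ∈ cycloΘ Kb ℓ m,
    IsLocalRing.residue A₀ ⟨t, cycloΘ_mem_valuationSubring A₀ ht⟩ ∈ badValues A₀ M}

include hℓ hA hℓM in
theorem finite_badIndices : (badIndices A₀ ℓ M).Finite :=
  (cycloValueSeq (modularValSetup A₀ ℓ M hℓ hA hℓM) hℓ hA).finite_bad
    (modularValSetup A₀ ℓ M hℓ hA hℓM) (finite_badValues A₀ ℓ M hℓ hA hℓM)

/-- the separating value functions: `none ↦ j(P)`, `some a ↦ b_a(P)`. -/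
def sepValue {n : ℕ} (b : Fin n → modularFunctionFieldBar M) :
    Option (Fin n) → Place Kb ↥(modularFunctionFieldBar M) → Kb
  | none, P => valueAt (Fermat.Agent.RRMod.isRRField_bar M) P (Fermat.Agent.S24.jBar M)
  | some a, P => valueAt (Fermat.Agent.RRMod.isRRField_bar M) P (b a)

/-- **FIB, modular assembly** (family form). -/
theorem exists_modFibres {W : Type} [AddCommGroup W] [Finite W]
    (ι : W →+ Pic0 Kb ↥(modularFunctionFieldBar M)) :
    ∃ (Fib : Fin (genusFF Kb ↥(modularFunctionFieldBar M)) →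
        Set (Place Kb ↥(modularFunctionFieldBar M)))
      (J : Type) (_ : Finite J)
      (s : Fin (genusFF Kb ↥(modularFunctionFieldBar M)) → J →
        Place Kb ↥(modularFunctionFieldBar M) → Kb),
      (∀ i, (Fib i).Finite) ∧ (∀ i, (Fib i).Nonempty) ∧
      (∀ i (σ : GK) P, P ∈ Fib i → (modGeomSetup A₀ ℓ M hℓ hA hℓM h49).gal σ • P ∈ Fib i) ∧
      (∀ i j P, P ∈ Fib i → IsIntegral (ratLocalizedAt ℓ) (s i j P)) ∧
      (∀ i j (σ : GK) P, P ∈ Fib i →
        s i j ((modGeomSetup A₀ ℓ M hℓ hA hℓM h49).gal σ • P) = σ (s i j P)) ∧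
      (∀ i P P', P ∈ Fib i → P' ∈ Fib i → P ≠ P' →
        ∃ j, A₀.valuation (s i j P - s i j P') = 1) ∧
      (∀ τ : Fin (genusFF Kb ↥(modularFunctionFieldBar M)) →
          Place Kb ↥(modularFunctionFieldBar M), (∀ i, τ i ∈ Fib i) →
        ∀ (w : W) (X : Divisor Kb ↥(modularFunctionFieldBar M))
          (hX : X ∈ Divisor.degZero (K := Kb) (F := ↥(modularFunctionFieldBar M))),
          Pic0.mk ⟨X, hX⟩ = ι w →
            IsGoodDiv ((modGeomSetup A₀ ℓ M hℓ hA hℓM h49).r (modGeomSetup A₀ ℓ M hℓ hA hℓM h49).oo)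
              (redDiv (modGeomSetup A₀ ℓ M hℓ hA hℓM h49).r (X + sumTuple τ))) := by
  classical
  set 𝒮 := modGeomSetup A₀ ℓ M hℓ hA hℓM h49 with h𝒮
  have hRR : IsRRField Kb ↥(modularFunctionFieldBar M) := Fermat.Agent.RRMod.isRRField_bar M
  have hgen : genusFF Kb ↥(modularFunctionFieldBar M) =
      genusFF (IsLocalRing.ResidueField A₀)
        ↥(modularFunctionFieldFullC (IsLocalRing.ResidueField A₀) M) := 𝒮.hg
  -- the separating family (helper24)
  obtain ⟨n, b, hbfix, -, hbval, hbsep⟩ := exists_sepFamily A₀ ℓ M hℓ hA hℓM hgen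
  -- the good indices
  obtain ⟨m, -, hmT, hm⟩ := exists_indices_goodFibres 𝒮 hℓ ι
    (x := Fermat.Agent.S24.jBar M) (jBar_mem_Ov A₀ ℓ M hℓ hA hℓM)
    (transcendental_red_jBar A₀ ℓ M hℓ hA hℓM) (degree_poleDiv_red_jBar A₀ ℓ M hℓ hA hℓM)
    (finite_badIndices A₀ ℓ M hℓ hA hℓM).toFinset
  have hfixj : ∀ σ : GK, 𝒮.gal σ • Fermat.Agent.S24.jBar M = Fermat.Agent.S24.jBar M :=
    fun σ => galQ_smul_jBar M σ
  refine ⟨fun i => cycloFib ℓ (Fermat.Agent.S24.jBar M) (m i), Option (Fin n), inferInstance,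
    fun _ => sepValue M b, fun i => finite_cycloFib hRR _ _,
    fun i => cycloFib_nonempty hRR (Fermat.Agent.S24.transcendental_jBar M) _,
    fun i σ P hP => gal_smul_mem_cycloFib 𝒮 hfixj (m i) σ hP, ?_, ?_, ?_,
    fun τ hτ w X hX hXw => (hm τ hτ w X hX hXw).1⟩
  · -- integrality
    intro i j P hP
    obtain ⟨t, ht, hPt⟩ := mem_cycloFib.mp hP
    have htint : IsIntegral (ratLocalizedAt ℓ) t :=
      isIntegral_cycloΘ (ratLocalizedAt ℓ) (mem_cycloΘ.mpr ht)
    cases j with
    | none =>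
      show IsIntegral (ratLocalizedAt ℓ) (valueAt _ P (Fermat.Agent.S24.jBar M))
      rw [valueAt_jBar M hPt]
      exact htint
    | some a =>
      exact isIntegral_valueAt_of_fibre A₀ ℓ M hℓ hA (fun σ => hbfix a σ)
        (fun t' ht' P' hP' => hbval t' ht' P' hP' a) htint hPt
  · -- equivariance
    intro i j σ P _
    cases j with
    | none => exact valueAt_galQ M σ P (galQ_smul_jBar M σ)
    | some a => exact valueAt_galQ M σ P (hbfix a σ)
  · -- separation by units
    intro i P P' hP hP' hne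
    obtain ⟨t, ht, hPt⟩ := mem_cycloFib.mp hP
    obtain ⟨t', ht', hPt'⟩ := mem_cycloFib.mp hP'
    by_cases htt : t = t'
    · subst htt
      have htA : t ∈ A₀ := cycloΘ_mem_valuationSubring A₀ (mem_cycloΘ.mpr ht)
      have hbad : IsLocalRing.residue A₀ ⟨t, htA⟩ ∉ badValues A₀ M := by
        intro hb
        apply hmT i
        rw [Set.Finite.mem_toFinset]
        exact ⟨t, mem_cycloΘ.mpr ht, hb⟩
      obtain ⟨a, ha⟩ := hbsep t htA hbad P P' hPt hPt' hne
      exact ⟨some a, ha⟩
    · refine ⟨none, ?_⟩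
      show A₀.valuation (valueAt _ P (Fermat.Agent.S24.jBar M)
        - valueAt _ P' (Fermat.Agent.S24.jBar M)) = 1
      rw [valueAt_jBar M hPt, valueAt_jBar M hPt']
      exact valuation_sub_cycloΘ A₀ hℓ hA (mem_cycloΘ.mpr ht) (mem_cycloΘ.mpr ht') htt

/-- **Seat FIB, final**: the good fibres of the modular setup. -/
theorem nonempty_goodFibres_modular {W : Type} [AddCommGroup W] [Finite W]
    (ι : W →+ Pic0 Kb ↥(modularFunctionFieldBar M)) :
    Nonempty (GoodFibres (modGeomSetup A₀ ℓ M hℓ hA hℓM h49) ι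
      (genusFF Kb ↥(modularFunctionFieldBar M))) := by
  obtain ⟨Fib, J, hJ, s, h1, h2, h3, h4, h5, h6, h7⟩ :=
    exists_modFibres A₀ ℓ M hℓ hA hℓM h49 ι
  exact ⟨{ Fib := Fib, fin := h1, nonempty := h2, stable := h3, J := J, finJ := hJ, s := s,
           s_int := h4, s_eq := h5, unit := h6, good := h7 }⟩

end Fermat.Agent.FFGoodEll
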